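import Fermat.Agent.AlperinFusion.Main

/-!
# Consequences of Alperin's fusion theorem

The focal subgroup, control of fusion by a subgroup containing the normalisers of the nontrivial
tame intersections, and Burnside's lemma on normal subsets.
-/

set_option autoImplicit false
set_option linter.style.haveILetI false

noncomputable section

open Subgroup
open scoped Pointwise commutatorElement

namespace FA.AlperinFusion

variable {p : ℕ} {G : Type*} [Group G] {P : Sylow p G}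

/-- The steps of a linked element. -/
theorem Linked.exists_steps {A : Set G} {g : G} (h : Linked P A g) :
    ∃ (k : ℕ) (w : ℕ → G) (Q : ℕ → Subgroup G), w 0 = 1 ∧ w k = g ∧ ∀ i < k, Tame P (Q i) ∧
      w (i + 1) * (w i)⁻¹ ∈ normalizer (Q i : Set G) ∧ ∀ a ∈ A, w i * a * (w i)⁻¹ ∈ Q i := by
  induction h with
  | refl A => exact ⟨0, fun _ => 1, fun _ => ⊥, rfl, rfl, fun i hi => absurd hi i.not_lt_zero⟩
  | @step A Q₀ n g hT hn hQ _ ih =>
    obtain ⟨k, w, Q, h0, hk, hs⟩ := ih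
    refine ⟨k + 1, fun i => i.casesOn 1 fun j => w j * n, fun i => i.casesOn Q₀ Q, rfl, ?_, ?_⟩
    · show w k * n = g * n
      rw [hk]
    rintro (_ | j) hj
    · refine ⟨hT, ?_, fun a ha => ?_⟩
      · show w 0 * n * 1⁻¹ ∈ normalizer (Q₀ : Set G)
        rwa [h0, one_mul, inv_one, mul_one]
      · show 1 * a * 1⁻¹ ∈ Q₀
        simpa using hQ a ha
    obtain ⟨hT', hn', hQ'⟩ := hs j (by omega)
    refine ⟨hT', ?_, fun a ha => ?_⟩
    · show w (j + 1) * n * (w j * n)⁻¹ ∈ normalizer (Q j : Set G)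
      rwa [show w (j + 1) * n * (w j * n)⁻¹ = w (j + 1) * (w j)⁻¹ by group]
    · show w j * n * a * (w j * n)⁻¹ ∈ Q j
      rw [show w j * n * a * (w j * n)⁻¹ = w j * (n * a * n⁻¹) * (w j)⁻¹ by group]
      exact hQ' _ ⟨a, ha, rfl⟩

theorem Linked.focal {x g : G} {A : Set G} (h : Linked P A g) (hx : x ∈ A) :
    g * x * g⁻¹ * x⁻¹ ∈ closure {c : G | ∃ Q : Subgroup G, Tame P Q ∧
      ∃ a ∈ Q, ∃ n ∈ normalizer (Q : Set G), c = ⁅n, a⁆} := by
  induction h generalizing x with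
  | refl A => simp
  | @step A Q n g hT hn hQ _ ih =>
    rw [show g * n * x * (g * n)⁻¹ * x⁻¹ =
      g * (n * x * n⁻¹) * g⁻¹ * (n * x * n⁻¹)⁻¹ * ⁅n, x⁆ by group]
    exact mul_mem (ih ⟨x, hx, rfl⟩)
      (subset_closure ⟨Q, hT, x, hQ x hx, n, hn, rfl⟩)

theorem Linked.mem {A : Set G} {g : G} (h : Linked P A g) {x : G} (hx : x ∈ A) (hx1 : x ≠ 1)
    {H : Subgroup G}
    (hH : ∀ Q : Subgroup G, Tame P Q → Q ≠ ⊥ → normalizer (Q : Set G) ≤ H) : g ∈ H := by
  induction h generalizing x with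
  | refl A => exact one_mem H
  | @step A Q n g hT hn hQ _ ih =>
    refine mul_mem (ih ⟨x, hx, rfl⟩ fun e => hx1 ?_) (hH Q hT ?_ hn)
    · simpa using e
    · rintro rfl
      exact hx1 (mem_bot.1 (hQ x hx))

variable [hp : Fact p.Prime] [Finite G]

/-- **The focal subgroup is generated locally.** -/
theorem focalSubgroup_eq (P : Sylow p G) :
    (P : Subgroup G).focalSubgroup = closure {c : G | ∃ Q : Subgroup G, Tame P Q ∧
      ∃ a ∈ Q, ∃ n ∈ normalizer (Q : Set G), c = ⁅n, a⁆} := by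
  refine le_antisymm ?_ ?_
  · rw [focalSubgroup_def, closure_le]
    rintro c ⟨hc, x, hx, u, rfl⟩
    have hux : u * x * u⁻¹ ∈ P := by
      have h := mul_mem (inv_mem hc) hx
      rwa [show ⁅x, u⁆⁻¹ * x = u * x * u⁻¹ by group] at h
    have h := (linked_of_conj (A := {x}) (g := u) (fun a ha => ha ▸ hx)
      fun a ha => ha ▸ hux).focal (Set.mem_singleton x)
    have h' := inv_mem h
    rwa [show (u * x * u⁻¹ * x⁻¹)⁻¹ = ⁅x, u⁆ by group] at h'
  · rw [closure_le]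
    rintro c ⟨Q, hQ, a, ha, n, hn, rfl⟩
    rw [SetLike.mem_coe, ← inv_mem_iff, commutatorElement_inv, focalSubgroup_def]
    refine subset_closure ⟨?_, a, hQ.le ha, n, rfl⟩
    rw [commutatorElement_def]
    rw [show a * n * a⁻¹ * n⁻¹ = a * (n * a * n⁻¹)⁻¹ by group]
    exact mul_mem (hQ.le ha) (inv_mem (hQ.le ((mem_normalizer_iff.1 hn a).1 ha)))

/-- **Burnside**: conjugate normal subsets of `P` are conjugate in the normaliser of `P`. -/
theorem exists_normalizer_conj (P : Sylow p G) {A : Set G} {g : G}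
    (hA : ∀ c ∈ P, ∀ a, a ∈ A ↔ c * a * c⁻¹ ∈ A)
    (hB : ∀ c ∈ P, ∀ a, g⁻¹ * a * g ∈ A ↔ g⁻¹ * (c * a * c⁻¹) * g ∈ A) :
    ∃ m ∈ normalizer ((P : Subgroup G) : Set G), (fun a => m * a * m⁻¹) '' A =
      (fun a => g * a * g⁻¹) '' A := by
  set N := normalizer A
  have h1 : (P : Subgroup G) ≤ N := fun c hc => mem_set_normalizer_iff.2 (hA c hc)
  have h2 : ((g⁻¹ • P : Sylow p G) : Subgroup G) ≤ N := fun c hc => by
    rw [mem_smul_iff, inv_inv] at hc
    refine mem_set_normalizer_iff.2 fun a => ?_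
    have h := hB _ hc (g * a * g⁻¹)
    rwa [show g⁻¹ * (g * a * g⁻¹) * g = a by group, show g⁻¹ * (g * c * g⁻¹ * (g * a * g⁻¹) *
      (g * c * g⁻¹)⁻¹) * g = c * a * c⁻¹ by group] at h
  obtain ⟨S, hS, hind⟩ := exists_sylow_ge P.2 h1
  obtain rfl : S = P := Sylow.ext (P.3 S.2 hS)
  obtain ⟨n, hn, hc⟩ := exists_conj_le S hind (g⁻¹ • S : Sylow p G).2 h2
  have hgn : g * n ∈ normalizer ((S : Subgroup G) : Set G) := by
    have hle : ((g⁻¹ • S : Sylow p G) : Subgroup G) ≤ (n • S : Sylow p G) := fun k hk =>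
      mem_smul_iff.2 (hc k hk)
    have he : g⁻¹ • S = n • S := Sylow.ext ((g⁻¹ • S).3 (n • S).2 hle).symm
    refine Sylow.smul_eq_iff_mem_normalizer.1 ?_
    rw [mul_smul, ← he, smul_inv_smul]
  refine ⟨g * n, hgn, Set.ext fun b => ⟨?_, ?_⟩⟩
  · rintro ⟨a, ha, rfl⟩
    exact ⟨n * a * n⁻¹, (mem_set_normalizer_iff.1 hn a).1 ha, by group⟩
  · rintro ⟨a, ha, rfl⟩
    refine ⟨n⁻¹ * a * n, ?_, by group⟩
    rw [mem_set_normalizer_iff.1 hn]
    rwa [show n * (n⁻¹ * a * n) * n⁻¹ = a by group]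

end FA.AlperinFusion

end
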