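import Fermat.Agent.AlperinFusion.Tame

/-!
# Alperin's fusion theorem

By induction on the intersection with `P`, every Sylow subgroup is carried onto `P` by a product of
elements of normalisers of tame intersections, each containing what has been carried so far.
-/

set_option autoImplicit false
set_option linter.style.haveILetI false

noncomputable section

open Subgroup
open scoped Pointwise

namespace FA.AlperinFusion

variable {p : ℕ} [hp : Fact p.Prime] {G : Type*} [Group G] [Finite G]

/-- `A` is moved by `g` through normalisers of tame intersections. -/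
inductive Linked (P : Sylow p G) : Set G → G → Prop
  | refl (A : Set G) : Linked P A 1
  | step {A : Set G} {Q : Subgroup G} {n g : G} : Tame P Q → n ∈ normalizer (Q : Set G) →
      (∀ a ∈ A, a ∈ Q) → Linked P ((fun a => n * a * n⁻¹) '' A) g → Linked P A (g * n)

variable {P : Sylow p G}

omit hp [Finite G] in
theorem Linked.mono {A B : Set G} {g : G} (h : Linked P B g) (hAB : A ⊆ B) : Linked P A g := by
  induction h generalizing A with
  | refl => exact .refl A
  | step hT hn hQ _ ih => exact .step hT hn (fun a ha => hQ a (hAB ha)) (ih (Set.image_mono hAB))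

omit hp [Finite G] in
theorem Linked.trans {A B : Set G} {g h : G} (hA : Linked P A g)
    (hAB : ∀ a ∈ A, g * a * g⁻¹ ∈ B) (hB : Linked P B h) : Linked P A (h * g) := by
  induction hA with
  | refl A => simpa using hB.mono fun a ha => by simpa using hAB a ha
  | @step A Q n g hT hn hQ _ ih =>
    rw [← mul_assoc]
    refine .step hT hn hQ (ih ?_)
    rintro _ ⟨a, ha, rfl⟩
    convert hAB a ha using 1
    group

omit hp [Finite G] in
theorem Linked.single {A : Set G} {Q : Subgroup G} {n : G} (hT : Tame P Q)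
    (hn : n ∈ normalizer (Q : Set G)) (hA : ∀ a ∈ A, a ∈ Q) : Linked P A n := by
  have h := Linked.step hT hn hA (.refl _)
  rwa [one_mul] at h

/-- `R` is carried onto `P`. -/
def Reach (P R : Sylow p G) : Prop :=
  ∃ x : G, x • R = P ∧ Linked P (((P : Subgroup G) ⊓ R : Subgroup G) : Set G) x

omit hp [Finite G] in
theorem Reach.step {R S : Sylow p G} {x : G} (hx : x • S = P)
    (hS : Linked P (((P : Subgroup G) ⊓ S : Subgroup G) : Set G) x)
    (hle : (P : Subgroup G) ⊓ R ≤ S) (h : Reach P (x • R)) : Reach P R := by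
  obtain ⟨y, hy, hl⟩ := h
  refine ⟨y * x, by rw [mul_smul, hy],
    (hS.mono fun a ha => mem_inf.2 ⟨(mem_inf.1 ha).1, hle ha⟩).trans (fun a ha => ?_) hl⟩
  refine mem_inf.2 ⟨?_, conj_mem_smul (mem_inf.1 ha).2⟩
  rw [← hx]
  exact conj_mem_smul (hle ha)

/-- The case of an intersection whose normaliser in `P` is a Sylow subgroup of the normaliser. -/
theorem reach_of_normalizer {R : Sylow p G}
    (IH : ∀ R' : Sylow p G, Nat.card ↥((P : Subgroup G) ⊓ R) <
      Nat.card ↥((P : Subgroup G) ⊓ R') → Reach P R')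
    (hne : R ≠ P)
    (hN : ¬ p ∣ ((P : Subgroup G) ⊓ normalizer (((P : Subgroup G) ⊓ R : Subgroup G) : Set G)
      ).relIndex (normalizer (((P : Subgroup G) ⊓ R : Subgroup G) : Set G))) : Reach P R := by
  set Q := (P : Subgroup G) ⊓ R with hQ
  set N := normalizer (Q : Set G) with hNdef
  obtain ⟨n, hn, hK⟩ := exists_conj_le P hN (K := (R : Subgroup G) ⊓ N)
    (R.2.to_le inf_le_left) inf_le_right
  have hRU : (R : Subgroup G) ⊓ N ≤ ((n • P : Sylow p G) : Subgroup G) := fun k hk =>
    mem_smul_iff.2 (hK k hk)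
  have hQR : Q < (R : Subgroup G) := lt_of_le_of_ne inf_le_right fun h => hne (Sylow.ext
    (R.3 P.2 (h ▸ inf_le_left)).symm)
  obtain ⟨y, hyR, hyQ, hyN⟩ := FA.Thompson.exists_normalizing R.2 hQR
  have hQN : Q < (R : Subgroup G) ⊓ N := lt_of_le_of_ne (le_inf hQR.le le_normalizer)
    fun h => hyQ (h ▸ mem_inf.2 ⟨hyR, hyN⟩)
  have hQU : Q ≤ (n • P : Sylow p G) := hQN.le.trans hRU
  -- the Sylow subgroup `n • P` is carried onto `P`
  have hU : Reach P (n • P) := by
    rcases (le_inf (inf_le_left : Q ≤ P) hQU).lt_or_eq with hlt | heq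
    · exact IH _ (card_lt_of_lt hlt)
    · refine ⟨n⁻¹, inv_smul_smul _ _, Linked.single (Q := Q) ⟨n • P, heq, hN, ?_⟩ (inv_mem hn)
        fun a ha => heq.ge ha⟩
      have hmap : Q.map (MulAut.conj n).toMonoidHom = Q :=
        mem_normalizer_iff_map_conj_eq.1 hn
      have h := relIndex_normalizer_map (MulAut.conj n) (P : Subgroup G) Q
      rw [hmap, ← coe_smul_eq_map] at h
      rwa [h]
  obtain ⟨z, hz, hlz⟩ := hU
  have hle : ((R : Subgroup G) ⊓ N).map (MulAut.conj z).toMonoidHom ≤
      (P : Subgroup G) ⊓ ((z • R : Sylow p G) : Subgroup G) := by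
    rintro _ ⟨r, hr, rfl⟩
    refine mem_inf.2 ⟨?_, conj_mem_smul (mem_inf.1 hr).1⟩
    rw [← hz]
    exact conj_mem_smul (hRU hr)
  refine Reach.step hz hlz hQU (IH _ ?_)
  calc Nat.card ↥Q < Nat.card ↥((R : Subgroup G) ⊓ N) := card_lt_of_lt hQN
    _ = Nat.card ↥(((R : Subgroup G) ⊓ N).map (MulAut.conj z).toMonoidHom) :=
        Nat.card_congr (((R : Subgroup G) ⊓ N).equivMapOfInjective _
          (MulAut.conj z).injective).toEquiv
    _ ≤ _ := Subgroup.card_le_of_le hle

/-- **Every Sylow subgroup is carried onto `P`.** -/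
theorem reach (R : Sylow p G) : Reach P R := by
  suffices h : ∀ m, ∀ R : Sylow p G,
      Nat.card (P : Subgroup G) ≤ Nat.card ↥((P : Subgroup G) ⊓ R) + m → Reach P R from
    h _ R (Nat.le_add_left _ _)
  intro m
  induction m with
  | zero =>
    intro R hR
    refine ⟨1, ?_, .refl _⟩
    rw [one_smul]
    exact Sylow.ext (P.3 R.2
      (inf_eq_left.1 (eq_of_le_of_card_ge inf_le_left (by simpa using hR))))
  | succ m ih =>
    intro R hR
    by_cases hne : R = P
    · exact ⟨1, by rw [one_smul, hne], .refl _⟩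
    have IH : ∀ R' : Sylow p G, Nat.card ↥((P : Subgroup G) ⊓ R) <
        Nat.card ↥((P : Subgroup G) ⊓ R') → Reach P R' := fun R' h => ih R' (by omega)
    set D := (P : Subgroup G) ⊓ R with hD
    set N := normalizer (D : Set G) with hNdef
    obtain ⟨S, hS, hSN⟩ := exists_sylow_ge (N := N) (K := (P : Subgroup G) ⊓ N)
      (P.2.to_le inf_le_left) inf_le_right
    have hDP : D < (P : Subgroup G) := lt_of_le_of_ne inf_le_left fun h => hne (Sylow.ext
      (P.3 R.2 (h ▸ inf_le_right)))
    obtain ⟨y, hyP, hyD, hyN⟩ := FA.Thompson.exists_normalizing P.2 hDP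
    have hDS : D ≤ S := (le_inf hDP.le le_normalizer).trans hS
    have hlt : D < (P : Subgroup G) ⊓ S := lt_of_le_of_ne (le_inf hDP.le hDS) fun h =>
      hyD (h ▸ mem_inf.2 ⟨hyP, hS (mem_inf.2 ⟨hyP, hyN⟩)⟩)
    obtain ⟨x, hx, hlx⟩ := IH S (card_lt_of_lt hlt)
    refine Reach.step hx hlx hDS ?_
    have hsub : D.map (MulAut.conj x).toMonoidHom ≤
        (P : Subgroup G) ⊓ ((x • R : Sylow p G) : Subgroup G) := by
      rintro _ ⟨a, ha, rfl⟩
      refine mem_inf.2 ⟨?_, conj_mem_smul (mem_inf.1 ha).2⟩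
      rw [← hx]
      exact conj_mem_smul (hDS ha)
    have hcard : Nat.card (D.map (MulAut.conj x).toMonoidHom) = Nat.card D :=
      Nat.card_congr (D.equivMapOfInjective _ (MulAut.conj x).injective).toEquiv.symm
    rcases hsub.lt_or_eq with h | h
    · exact IH _ (hcard ▸ card_lt_of_lt h)
    refine reach_of_normalizer (fun R' hR' => IH R' (by rwa [← h, hcard] at hR')) ?_ ?_
    · intro e
      have hRS : R = S := smul_left_cancel x (e.trans hx.symm)
      exact hlt.ne (by rw [hD, hRS])
    · rw [← h, show (P : Subgroup G) = (S : Subgroup G).map (MulAut.conj x).toMonoidHom from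
        (congrArg Sylow.toSubgroup hx).symm, relIndex_normalizer_map]
      exact hSN

/-- **Alperin's fusion theorem.** -/
theorem linked_of_conj {A : Set G} {g : G} (hA : ∀ a ∈ A, a ∈ P)
    (hg : ∀ a ∈ A, g * a * g⁻¹ ∈ P) : Linked P A g := by
  obtain ⟨x, hx, hl⟩ := reach (P := P) (g⁻¹ • P)
  have hR : ∀ a ∈ A, a ∈ (P : Subgroup G) ⊓ ((g⁻¹ • P : Sylow p G) : Subgroup G) := fun a ha =>
    mem_inf.2 ⟨hA a ha, mem_smul_iff.2 (by rw [inv_inv]; exact hg a ha)⟩
  have hn : g * x⁻¹ ∈ normalizer ((P : Subgroup G) : Set G) := by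
    refine Sylow.smul_eq_iff_mem_normalizer.1 ?_
    rw [mul_smul]
    conv_lhs => rw [← hx, inv_smul_smul, smul_inv_smul]
  have h := (hl.mono hR).trans (B := (P : Set G)) (fun a ha => ?_)
    (Linked.single (tame_self P) hn fun a ha => ha)
  · rwa [inv_mul_cancel_right] at h
  · show x * a * x⁻¹ ∈ (P : Subgroup G)
    rw [← hx]
    exact conj_mem_smul (mem_inf.1 (hR a ha)).2

end FA.AlperinFusion

end
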