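import Fermat.Agent.ThompsonTransfer.Frobenius

/-!
# Tame intersections of Sylow subgroups

A Sylow intersection is tame when both normalisers inside the two Sylow subgroups are Sylow
subgroups of the normaliser.
-/

set_option autoImplicit false
set_option linter.style.haveILetI false

noncomputable section

open Subgroup
open scoped Pointwise

namespace FA.AlperinFusion

variable {p : ℕ} {G : Type*} [Group G]

/-- Tame intersections in `P`. -/
def Tame (P : Sylow p G) (Q : Subgroup G) : Prop :=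
  ∃ R : Sylow p G, Q = (P : Subgroup G) ⊓ R ∧
    ¬ p ∣ ((P : Subgroup G) ⊓ normalizer (Q : Set G)).relIndex (normalizer (Q : Set G)) ∧
    ¬ p ∣ ((R : Subgroup G) ⊓ normalizer (Q : Set G)).relIndex (normalizer (Q : Set G))

theorem mem_smul_iff {c x : G} {S : Sylow p G} :
    x ∈ ((c • S : Sylow p G) : Subgroup G) ↔ c⁻¹ * x * c ∈ S :=
  FA.Thompson.mem_conj_smul

theorem conj_mem_smul {c x : G} {S : Sylow p G} (hx : x ∈ S) :
    c * x * c⁻¹ ∈ ((c • S : Sylow p G) : Subgroup G) := by
  rw [mem_smul_iff]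
  convert hx using 1
  group

theorem coe_smul_eq_map (c : G) (S : Sylow p G) :
    ((c • S : Sylow p G) : Subgroup G) = (S : Subgroup G).map (MulAut.conj c).toMonoidHom := rfl

/-- Conjugation carries the index in a normaliser along. -/
theorem relIndex_normalizer_map (e : G ≃* G) (S D : Subgroup G) :
    (S.map e.toMonoidHom ⊓ normalizer (D.map e.toMonoidHom : Set G)).relIndex
        (normalizer (D.map e.toMonoidHom : Set G)) =
      (S ⊓ normalizer (D : Set G)).relIndex (normalizer (D : Set G)) := by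
  rw [← map_equiv_normalizer_eq, ← map_inf _ _ _ e.injective,
    relIndex_map_map_of_injective _ _ e.injective]

variable [hp : Fact p.Prime] [Finite G]

omit hp in
theorem card_lt_of_lt {H K : Subgroup G} (h : H < K) : Nat.card H < Nat.card K :=
  lt_of_not_ge fun hge => h.ne (eq_of_le_of_card_ge h.le hge)

/-- A `p`-subgroup of `N` lies in a Sylow subgroup of `G` meeting `N` in one of `N`. -/
theorem exists_sylow_ge {N K : Subgroup G} (hK : IsPGroup p K) (hKN : K ≤ N) :
    ∃ S : Sylow p G, K ≤ S ∧ ¬ p ∣ ((S : Subgroup G) ⊓ N).relIndex N := by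
  obtain ⟨T, hT⟩ := (hK.comap_subtype (K := N)).exists_le_sylow
  obtain ⟨S, hS⟩ := (T.2.map N.subtype).exists_le_sylow
  refine ⟨S, fun k hk => hS ⟨⟨k, hKN hk⟩, hT (mem_subgroupOf.2 hk), rfl⟩, fun hdvd => ?_⟩
  have hT' : ¬ p ∣ ((T : Subgroup N).map N.subtype).relIndex N := by
    rw [relIndex, ← comap_subtype, comap_map_eq_self_of_injective N.subtype_injective]
    exact T.not_dvd_index
  refine hT' (hdvd.trans ?_)
  rw [← relIndex_mul_relIndex _ _ N (le_inf hS (map_subtype_le _)) inf_le_right]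
  exact dvd_mul_left _ _

/-- Sylow subgroups of `N` absorb its `p`-subgroups. -/
theorem exists_conj_le {N K : Subgroup G} (S : Sylow p G)
    (hS : ¬ p ∣ ((S : Subgroup G) ⊓ N).relIndex N) (hK : IsPGroup p K) (hKN : K ≤ N) :
    ∃ n ∈ N, ∀ k ∈ K, n⁻¹ * k * n ∈ S := by
  have h1 : IsPGroup p (((S : Subgroup G) ⊓ N).subgroupOf N) :=
    (S.2.to_le inf_le_left).comap_subtype
  set T : Sylow p N := h1.toSylow hS with hT
  obtain ⟨T', hT'⟩ := (hK.comap_subtype (K := N)).exists_le_sylow
  obtain ⟨m, hm⟩ := MulAction.exists_smul_eq N T T'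
  refine ⟨m, m.2, fun k hk => ?_⟩
  have h : (⟨k, hKN hk⟩ : N) ∈ ((m • T : Sylow p N) : Subgroup N) :=
    hm ▸ hT' (mem_subgroupOf.2 hk)
  rw [mem_smul_iff] at h
  exact (mem_inf.1 (mem_subgroupOf.1 (show m⁻¹ * ⟨k, hKN hk⟩ * m ∈
    ((S : Subgroup G) ⊓ N).subgroupOf N from h))).1

/-- The Sylow subgroup itself is a tame intersection. -/
theorem tame_self (P : Sylow p G) : Tame P (P : Subgroup G) := by
  obtain ⟨S, hS, hind⟩ := exists_sylow_ge P.2 (le_normalizer (H := (P : Subgroup G)))
  obtain rfl : S = P := Sylow.ext (P.3 S.2 hS)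
  exact ⟨S, (inf_idem _).symm, hind, hind⟩

omit hp [Finite G] in
theorem Tame.le {P : Sylow p G} {Q : Subgroup G} (h : Tame P Q) : Q ≤ P := by
  obtain ⟨R, rfl, -⟩ := h
  exact inf_le_left

end FA.AlperinFusion

end
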